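import Fermat.Agent.LT.T6.H385.DescSpec
import Fermat.Agent.LT.H129.HenselQuad

/-!
# Row LT, tower T6, leaf T6.18i.6e `NormalSmallC385` (helper621), OFF-MAIN

    normalSmallC621 : H385.NormalSmallC385                  (VERBATIM, no hypothesis)

Spec: `LT/T6/H385/DescSpec.lean` (helper385, sha256 ef4c48b7ce18), byte-identical.
Asset used: `LT/H129/HenselQuad.lean` (helper129, `hensel_quad129`), byte-identical.

## The proof

`D = {x : x δ₀ = δ₀ σ(x)} = {[[a, z σ(c)], [c, σ(a)]]}`, `δ₀ = [[0, z], [1, 0]]`.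

* `aniso621`: the reduced norm is ANISOTROPIC WITH A CONSTANT,
  `|4| · max(|a|², |z| |c|²) ≤ |N a - z N c|`.
  Otherwise `|N a| = |z N c| ≠ 0` and `u = N a / (z N c) ∈ k` has `|u - 1| < |4|`, so `u = y²`
  (`sqrt_near_one621`, Hensel for `X² - u` at `1`) and `z = N (a / (c y))` is a norm.
* `det (d⁻¹ w d - 1) = det (w - 1)`, and `d⁻¹ w d - 1`, `w - 1` have the shape of `D`; so the
  entries of `d⁻¹ w d - 1` are bounded by the entries of `w - 1`, up to the constant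
  `|4|⁻¹ max(1, |z|)² max(1, |z|⁻¹)` (`conj_small621`).
* The same for `w⁻¹`.
-/

set_option autoImplicit false

open scoped Matrix

noncomputable section

namespace Fermat.Agent.LT.T6.H621

open Fermat.Agent.LT.T6 Fermat.Agent.LT.T6.H783 Fermat.Agent.LT.T6.H385

/-! ## Square roots near `1` -/

section Field

/-- `|4| ≤ 1`. -/
theorem val_four_le_one621 (k : Type) [Field k] [Valued k Γ₀] : Valued.v (4 : k) ≤ 1 := by
  have h2 : Valued.v (2 : k) ≤ 1 := by
    have e : (2 : k) = 1 + 1 := by norm_num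
    rw [e]
    exact Valuation.map_add_le _ (by simp) (by simp)
  have e : (4 : k) = 2 * 2 := by norm_num
  rw [e, map_mul]
  exact mul_le_one' h2 h2

/-- In a complete field valued in `ℤᵐ⁰`, every `u` with `|u - 1| < |4|` is a square. -/
theorem sqrt_near_one621 {k : Type} [Field k] [Valued k Γ₀] [CompleteSpace k] (u : k)
    (h : Valued.v (u - 1) < Valued.v (4 : k)) : ∃ y : k, y ^ 2 = u := by
  obtain ⟨x, hx, -⟩ := H129.hensel_quad129 (0 : k) (-u) 1 (by
    have e1 : (1 : k) ^ 2 - 0 * 1 + -u = -(u - 1) := by ring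
    have e2 : (2 * 1 - 0 : k) ^ 2 = 4 := by norm_num
    rw [e1, Valuation.map_neg, ← map_pow, e2]
    exact h)
  exact ⟨x, by linear_combination hx⟩

end Field

/-! ## The reduced norm is anisotropic, with a constant -/

section Aniso

variable {k k' : Type} [Field k] [Field k'] [Valued k Γ₀] [Valued k' Γ₀]

/-- `σ² = 1`. -/
theorem s_s621 {e : ℕ} {i : k →+* k'} {s : k' ≃+* k'} (hext : IsLocalExt k k' 2 e i s)
    (y : k') : s (s y) = y := by
  have h := hext.cyc.order y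
  rwa [pow_two] at h

/-- The norm `y σ(y)` comes from `k`. -/
theorem exists_norm621 {e : ℕ} {i : k →+* k'} {s : k' ≃+* k'} (hext : IsLocalExt k k' 2 e i s)
    (y : k') : ∃ x : k, i x = y * s y :=
  hext.cyc.fixed (y * s y) (by rw [map_mul, s_s621 hext, mul_comm])

/-- **Anisotropy with a constant**: `|4| max(|a|², |z| |b|²) ≤ |N a - z N b|` if `z` is not a
norm. -/
theorem aniso621 [CompleteSpace k] {e : ℕ} {i : k →+* k'} {s : k' ≃+* k'}
    (hext : IsLocalExt k k' 2 e i s) {z : k} (hz : z ≠ 0)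
    (hnn : ¬ IsFieldNorm783 2 i s z) (a b : k') :
    Valued.v (i 4) * max (Valued.v a ^ 2) (Valued.v (i z) * Valued.v b ^ 2)
      ≤ Valued.v (a * s a - i z * (b * s b)) := by
  by_contra hlt
  rw [not_le] at hlt
  obtain ⟨xa, hxa⟩ := exists_norm621 hext a
  obtain ⟨xb, hxb⟩ := exists_norm621 hext b
  have hvA : Valued.v (a * s a) = Valued.v a ^ 2 := by rw [map_mul, hext.val_s, sq]
  have hvB : Valued.v (b * s b) = Valued.v b ^ 2 := by rw [map_mul, hext.val_s, sq]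
  rw [← hvA, ← hvB, ← map_mul, ← hxa, ← hxb] at hlt
  have hiz : i z ≠ 0 := (map_ne_zero i).mpr hz
  have h4 : Valued.v (i 4) ≤ 1 := by
    have e4 : (i 4 : k') = 4 := map_ofNat i 4
    rw [e4]; exact val_four_le_one621 k'
  have hixb' : Valued.v (i 4) * max (Valued.v (i xa)) (Valued.v (i z * i xb))
      ≤ max (Valued.v (i xa)) (Valued.v (i z * i xb)) := by
    calc Valued.v (i 4) * max (Valued.v (i xa)) (Valued.v (i z * i xb))
        ≤ 1 * max (Valued.v (i xa)) (Valued.v (i z * i xb)) := mul_le_mul' h4 le_rfl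
      _ = max (Valued.v (i xa)) (Valued.v (i z * i xb)) := one_mul _
  have hlt' : Valued.v (i xa - i z * i xb) < max (Valued.v (i xa)) (Valued.v (i z * i xb)) :=
    lt_of_lt_of_le hlt hixb'
  have heq : Valued.v (i xa) = Valued.v (i z * i xb) := by
    by_contra hne
    rcases lt_or_gt_of_ne hne with h | h
    · have h1 := Valuation.map_sub_eq_of_lt_right (Valued.v : Valuation k' Γ₀) h
      rw [h1, max_eq_right h.le] at hlt'
      exact lt_irrefl _ hlt'
    · have h1 := Valuation.map_sub_eq_of_lt_left (Valued.v : Valuation k' Γ₀) h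
      rw [h1, max_eq_left h.le] at hlt'
      exact lt_irrefl _ hlt'
  rw [heq, max_self] at hlt
  have hm0 : Valued.v (i z * i xb) ≠ 0 := by
    intro h0
    rw [h0, mul_zero] at hlt
    exact not_lt_zero hlt
  have hB0 : i z * i xb ≠ 0 := by
    intro h0
    rw [h0, map_zero] at hm0
    exact hm0 rfl
  have hixb : i xb ≠ 0 := right_ne_zero_of_mul hB0
  have hxb0 : xb ≠ 0 := (map_ne_zero i).mp hixb
  have hixa : i xa ≠ 0 := by
    intro h0
    rw [h0, map_zero] at heq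
    exact hm0 heq.symm
  have hxa0 : xa ≠ 0 := (map_ne_zero i).mp hixa
  have hb0 : b ≠ 0 := by
    intro h0
    rw [h0, zero_mul] at hxb
    exact hixb hxb
  -- the unit `u = xa / (z xb)` of `k`
  have hzxb : z * xb ≠ 0 := mul_ne_zero hz hxb0
  have hu1 : Valued.v (i (xa / (z * xb) - 1)) < Valued.v (i 4) := by
    have e1 : i (xa / (z * xb) - 1) = (i xa - i z * i xb) / (i z * i xb) := by
      rw [map_sub, map_div₀, map_mul, map_one]
      field_simp
    rw [e1, map_div₀, div_lt_iff₀ (zero_lt_iff.mpr hm0)]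
    exact hlt
  have hu2 : Valued.v (xa / (z * xb) - 1) < Valued.v (4 : k) := by
    rw [hext.val_i, hext.val_i] at hu1
    by_contra hle
    rw [not_lt] at hle
    exact absurd (pow_le_pow_left₀ zero_le hle e) (not_le.mpr hu1)
  obtain ⟨y, hy⟩ := sqrt_near_one621 (xa / (z * xb)) hu2
  have hu0 : xa / (z * xb) ≠ 0 := div_ne_zero hxa0 hzxb
  have hy0 : y ≠ 0 := by
    intro h0
    rw [h0] at hy
    exact hu0 (by rw [← hy]; ring)
  apply hnn
  refine ⟨a / (i y * b), ?_⟩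
  have hiy : i y ≠ 0 := (map_ne_zero i).mpr hy0
  have hsiy : s (i y) = i y := hext.cyc.fix_i y
  have hsb : s b ≠ 0 := (map_ne_zero s).mpr hb0
  have hprod : ∏ j ∈ Finset.range 2, (s ^ j) (a / (i y * b))
      = (a / (i y * b)) * s (a / (i y * b)) := by
    rw [Finset.prod_range_succ, Finset.prod_range_one, pow_zero, pow_one]
    rfl
  rw [hprod, map_div₀, map_mul, hsiy]
  have e2 : a / (i y * b) * (s a / (i y * s b)) = (a * s a) / (i y ^ 2 * (b * s b)) := by
    field_simp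
  rw [e2, ← hxa, ← hxb, ← map_pow, hy, map_div₀, map_mul]
  field_simp

end Aniso

/-! ## The twisted centraliser of `δ₀` -/

section Quat

variable {k' : Type} [Field k']

/-- `x` lies in the twisted centraliser of `δ` iff `σ(x) = δ⁻¹ x δ`. -/
theorem twCent_iff621 (s : k' ≃+* k') (δ x : GL (Fin 2) k') :
    InTwCent s δ x ↔ glAut s x = δ⁻¹ * x * δ := by
  unfold InTwCent
  constructor
  · intro h
    calc glAut s x = (x⁻¹ * δ)⁻¹ * (x⁻¹ * δ * glAut s x) := by group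
      _ = (x⁻¹ * δ)⁻¹ * δ := by rw [h]
      _ = δ⁻¹ * x * δ := by group
  · intro h
    rw [h]; group

theorem twCent_conj621 (s : k' ≃+* k') {δ w d : GL (Fin 2) k'} (hw : InTwCent s δ w)
    (hd : InTwCent s δ d) : InTwCent s δ (d⁻¹ * w * d) := by
  rw [twCent_iff621] at hw hd ⊢
  rw [map_mul, map_mul, map_inv, hw, hd]; group

theorem twCent_inv621 (s : k' ≃+* k') {δ w : GL (Fin 2) k'} (hw : InTwCent s δ w) :
    InTwCent s δ w⁻¹ := by
  rw [twCent_iff621] at hw ⊢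
  rw [map_inv, hw]; group

/-- The shape of the elements of `D`: `x = [[a, z σ(c)], [c, σ(a)]]`. -/
theorem quat_shape621 (s : k' ≃+* k') {Z : k'} {δ₀ x : GL (Fin 2) k'}
    (hδ : IsQuatBase385 Z δ₀) (hx : InTwCent s δ₀ x) :
    (x : Matrix (Fin 2) (Fin 2) k') 0 1 = Z * s ((x : Matrix (Fin 2) (Fin 2) k') 1 0) ∧
      (x : Matrix (Fin 2) (Fin 2) k') 1 1 = s ((x : Matrix (Fin 2) (Fin 2) k') 0 0) := by
  rw [twCent_iff621] at hx
  have h1 : δ₀ * glAut s x = x * δ₀ := by rw [hx]; group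
  have h2 : (δ₀ : Matrix (Fin 2) (Fin 2) k')
        * ((glAut s x : GL (Fin 2) k') : Matrix (Fin 2) (Fin 2) k')
      = (x : Matrix (Fin 2) (Fin 2) k') * (δ₀ : Matrix (Fin 2) (Fin 2) k') := by
    have h3 := congrArg (fun g : GL (Fin 2) k' => (g : Matrix (Fin 2) (Fin 2) k')) h1
    simpa using h3
  have e00 := congrFun (congrFun h2 0) 0
  have e10 := congrFun (congrFun h2 1) 0
  rw [Matrix.mul_apply, Matrix.mul_apply, Fin.sum_univ_two, Fin.sum_univ_two] at e00 e10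
  unfold IsQuatBase385 at hδ
  rw [hδ] at e00 e10
  simp [glAut, Matrix.GeneralLinearGroup.map_apply] at e00 e10
  exact ⟨e00.symm, e10.symm⟩

end Quat

/-! ## Conjugation by `D^×` -/

section Main

variable {k k' : Type} [Field k] [Field k'] [Valued k Γ₀] [Valued k' Γ₀]

omit [Valued k' Γ₀] in
/-- `det (x - 1) = N (a - 1) - z N c` for `x = [[a, z σ(c)], [c, σ(a)]]`. -/
theorem det_sub_one621 (s : k' ≃+* k') {Z : k'} {δ₀ x : GL (Fin 2) k'}
    (hδ : IsQuatBase385 Z δ₀) (hx : InTwCent s δ₀ x) :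
    ((x : Matrix (Fin 2) (Fin 2) k') - 1).det
      = ((x : Matrix (Fin 2) (Fin 2) k') 0 0 - 1) * s ((x : Matrix (Fin 2) (Fin 2) k') 0 0 - 1)
        - Z * ((x : Matrix (Fin 2) (Fin 2) k') 1 0 * s ((x : Matrix (Fin 2) (Fin 2) k') 1 0)) := by
  obtain ⟨h01, h11⟩ := quat_shape621 s hδ hx
  rw [Matrix.det_fin_two]
  simp only [Matrix.sub_apply, Matrix.one_apply_eq, ne_eq, zero_ne_one, one_ne_zero,
    not_false_eq_true, Matrix.one_apply_ne, sub_zero]
  rw [h01, h11, map_sub, map_one]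
  ring

omit [Valued k' Γ₀] in
/-- `det (d⁻¹ w d - 1) = det (w - 1)`. -/
theorem det_conj_sub_one621 (w d : GL (Fin 2) k') :
    (((d⁻¹ * w * d : GL (Fin 2) k') : Matrix (Fin 2) (Fin 2) k') - 1).det
      = ((w : Matrix (Fin 2) (Fin 2) k') - 1).det := by
  have h1 : ((d⁻¹ : GL (Fin 2) k') : Matrix (Fin 2) (Fin 2) k')
      * (d : Matrix (Fin 2) (Fin 2) k') = 1 := by
    rw [← Units.val_mul, inv_mul_cancel]; rfl
  have e : ((d⁻¹ * w * d : GL (Fin 2) k') : Matrix (Fin 2) (Fin 2) k') - 1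
      = ((d⁻¹ : GL (Fin 2) k') : Matrix (Fin 2) (Fin 2) k')
        * ((w : Matrix (Fin 2) (Fin 2) k') - 1) * (d : Matrix (Fin 2) (Fin 2) k') := by
    rw [Matrix.mul_sub, Matrix.sub_mul, mul_one, h1, Units.val_mul, Units.val_mul]
  have h2 : (((d⁻¹ : GL (Fin 2) k') : Matrix (Fin 2) (Fin 2) k')).det
      * (d : Matrix (Fin 2) (Fin 2) k').det = 1 := by
    rw [← Matrix.det_mul, h1, Matrix.det_one]
  rw [e, Matrix.det_mul, Matrix.det_mul]
  linear_combination ((w : Matrix (Fin 2) (Fin 2) k') - 1).det * h2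

/-- The constant of the estimate: `|4|⁻¹ max(1, |z|)² max(1, |z|⁻¹)`. -/
def quatConst621 (i : k →+* k') (z : k) : Γ₀ :=
  (Valued.v (i 4))⁻¹ * (max 1 (Valued.v (i z)) * (max 1 (Valued.v (i z))
    * max 1 (Valued.v (i z))⁻¹))

omit [Valued k Γ₀] in
theorem quatConst_ne_zero621 [CharZero k] (i : k →+* k') (z : k) :
    quatConst621 i z ≠ 0 := by
  have h4 : (i 4 : k') ≠ 0 := (map_ne_zero i).mpr (by norm_num)
  have hv4 : Valued.v (i 4) ≠ 0 := (Valuation.ne_zero_iff _).mpr h4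
  have h1 : (max 1 (Valued.v (i z)) : Γ₀) ≠ 0 :=
    (lt_of_lt_of_le zero_lt_one (le_max_left _ _)).ne'
  have h2 : (max 1 (Valued.v (i z))⁻¹ : Γ₀) ≠ 0 :=
    (lt_of_lt_of_le zero_lt_one (le_max_left _ _)).ne'
  exact mul_ne_zero (inv_ne_zero hv4) (mul_ne_zero h1 (mul_ne_zero h1 h2))

/-- **The estimate**: the entries of `d⁻¹ w d - 1` are bounded by the entries of `w - 1`. -/
theorem conj_entries621 [CompleteSpace k] [CharZero k] {e : ℕ} {i : k →+* k'} {s : k' ≃+* k'}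
    (hext : IsLocalExt k k' 2 e i s) {z : k} (hz : z ≠ 0)
    (hnn : ¬ IsFieldNorm783 2 i s z) {δ₀ : GL (Fin 2) k'} (hδ : IsQuatBase385 (i z) δ₀)
    {w d : GL (Fin 2) k'} (hw : InTwCent s δ₀ w) (hd : InTwCent s δ₀ d) {B : Γ₀}
    (hB : ∀ p q : Fin 2, Valued.v ((w : Matrix (Fin 2) (Fin 2) k') p q
      - (1 : Matrix (Fin 2) (Fin 2) k') p q) ≤ B) (p q : Fin 2) :
    Valued.v (((d⁻¹ * w * d : GL (Fin 2) k') : Matrix (Fin 2) (Fin 2) k') p q
      - (1 : Matrix (Fin 2) (Fin 2) k') p q) ^ 2 ≤ quatConst621 i z * B ^ 2 := by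
  have hg : InTwCent s δ₀ (d⁻¹ * w * d) := twCent_conj621 s hw hd
  obtain ⟨g01, g11⟩ := quat_shape621 s hδ hg
  have hdet := det_conj_sub_one621 w d
  rw [det_sub_one621 s hδ hg, det_sub_one621 s hδ hw] at hdet
  set ag : k' := ((d⁻¹ * w * d : GL (Fin 2) k') : Matrix (Fin 2) (Fin 2) k') 0 0 - 1 with hag
  set cg : k' := ((d⁻¹ * w * d : GL (Fin 2) k') : Matrix (Fin 2) (Fin 2) k') 1 0 with hcg
  set aw : k' := (w : Matrix (Fin 2) (Fin 2) k') 0 0 - 1 with haw
  set cw : k' := (w : Matrix (Fin 2) (Fin 2) k') 1 0 with hcw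
  set V : Γ₀ := Valued.v (i z) with hV
  set F : Γ₀ := Valued.v (i 4) with hF
  have hV0 : V ≠ 0 := (Valuation.ne_zero_iff _).mpr ((map_ne_zero i).mpr hz)
  have hF0 : F ≠ 0 := (Valuation.ne_zero_iff _).mpr ((map_ne_zero i).mpr (by norm_num))
  have hm1 : (1 : Γ₀) ≤ max 1 V := le_max_left _ _
  have hm2 : (1 : Γ₀) ≤ max 1 V⁻¹ := le_max_left _ _
  -- the entries of `w - 1`
  have haB : Valued.v aw ≤ B := by
    have h := hB 0 0
    rwa [Matrix.one_apply_eq] at h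
  have hcB : Valued.v cw ≤ B := by
    have h := hB 1 0
    rwa [Matrix.one_apply_ne (by decide), sub_zero] at h
  -- upper bound for the reduced norm
  have hup : Valued.v (aw * s aw - i z * (cw * s cw)) ≤ max 1 V * B ^ 2 := by
    refine Valuation.map_sub_le _ ?_ ?_
    · rw [map_mul, hext.val_s, ← sq]
      calc Valued.v aw ^ 2 ≤ B ^ 2 := pow_le_pow_left₀ zero_le haB 2
        _ = 1 * B ^ 2 := (one_mul _).symm
        _ ≤ max 1 V * B ^ 2 := mul_le_mul' hm1 le_rfl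
    · rw [map_mul, map_mul, hext.val_s, ← sq]
      exact mul_le_mul' (le_max_right _ _) (pow_le_pow_left₀ zero_le hcB 2)
  -- lower bound
  have hlow := aniso621 hext hz hnn ag cg
  rw [hdet] at hlow
  have hmax : max (Valued.v ag ^ 2) (V * Valued.v cg ^ 2) ≤ F⁻¹ * (max 1 V * B ^ 2) := by
    have h1 := le_trans hlow hup
    calc max (Valued.v ag ^ 2) (V * Valued.v cg ^ 2)
        = F⁻¹ * (F * max (Valued.v ag ^ 2) (V * Valued.v cg ^ 2)) := by
          rw [inv_mul_cancel_left₀ hF0]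
      _ ≤ F⁻¹ * (max 1 V * B ^ 2) := mul_le_mul' le_rfl h1
  have hA : Valued.v ag ^ 2 ≤ F⁻¹ * (max 1 V * B ^ 2) := le_trans (le_max_left _ _) hmax
  have hC : V * Valued.v cg ^ 2 ≤ F⁻¹ * (max 1 V * B ^ 2) := le_trans (le_max_right _ _) hmax
  -- comparison of the constants
  have hc0 : F⁻¹ * (max 1 V * B ^ 2) ≤ quatConst621 i z * B ^ 2 := by
    have h1 : max 1 V ≤ max 1 V * (max 1 V * max 1 V⁻¹) :=
      le_mul_of_one_le_right' (le_trans hm1 (le_mul_of_one_le_right' hm2))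
    calc F⁻¹ * (max 1 V * B ^ 2) = F⁻¹ * max 1 V * B ^ 2 := by rw [mul_assoc]
      _ ≤ F⁻¹ * (max 1 V * (max 1 V * max 1 V⁻¹)) * B ^ 2 :=
          mul_le_mul' (mul_le_mul' le_rfl h1) le_rfl
  have hc1 : V * (F⁻¹ * (max 1 V * B ^ 2)) ≤ quatConst621 i z * B ^ 2 := by
    have h1 : V * max 1 V ≤ max 1 V * (max 1 V * max 1 V⁻¹) := by
      calc V * max 1 V ≤ max 1 V * max 1 V := mul_le_mul' (le_max_right _ _) le_rfl
        _ ≤ max 1 V * (max 1 V * max 1 V⁻¹) :=
            mul_le_mul' le_rfl (le_mul_of_one_le_right' hm2)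
    calc V * (F⁻¹ * (max 1 V * B ^ 2)) = F⁻¹ * (V * max 1 V) * B ^ 2 := by ac_rfl
      _ ≤ F⁻¹ * (max 1 V * (max 1 V * max 1 V⁻¹)) * B ^ 2 :=
          mul_le_mul' (mul_le_mul' le_rfl h1) le_rfl
  have hc2 : V⁻¹ * (F⁻¹ * (max 1 V * B ^ 2)) ≤ quatConst621 i z * B ^ 2 := by
    have h1 : V⁻¹ * max 1 V ≤ max 1 V * (max 1 V * max 1 V⁻¹) := by
      calc V⁻¹ * max 1 V ≤ max 1 V⁻¹ * max 1 V := mul_le_mul' (le_max_right _ _) le_rfl
        _ = 1 * (max 1 V * max 1 V⁻¹) := by rw [one_mul, mul_comm]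
        _ ≤ max 1 V * (max 1 V * max 1 V⁻¹) := mul_le_mul' hm1 le_rfl
    calc V⁻¹ * (F⁻¹ * (max 1 V * B ^ 2)) = F⁻¹ * (V⁻¹ * max 1 V) * B ^ 2 := by ac_rfl
      _ ≤ F⁻¹ * (max 1 V * (max 1 V * max 1 V⁻¹)) * B ^ 2 :=
          mul_le_mul' (mul_le_mul' le_rfl h1) le_rfl
  -- the four entries
  fin_cases p <;> fin_cases q
  · -- (0, 0)
    show Valued.v (((d⁻¹ * w * d : GL (Fin 2) k') : Matrix (Fin 2) (Fin 2) k') 0 0
      - (1 : Matrix (Fin 2) (Fin 2) k') 0 0) ^ 2 ≤ _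
    rw [Matrix.one_apply_eq]
    exact le_trans hA hc0
  · -- (0, 1)
    show Valued.v (((d⁻¹ * w * d : GL (Fin 2) k') : Matrix (Fin 2) (Fin 2) k') 0 1
      - (1 : Matrix (Fin 2) (Fin 2) k') 0 1) ^ 2 ≤ _
    rw [Matrix.one_apply_ne (by decide), sub_zero, g01, map_mul, hext.val_s]
    calc (V * Valued.v cg) ^ 2 = V * (V * Valued.v cg ^ 2) := by
          rw [mul_pow, sq V, mul_assoc]
      _ ≤ V * (F⁻¹ * (max 1 V * B ^ 2)) := mul_le_mul' le_rfl hC
      _ ≤ _ := hc1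
  · -- (1, 0)
    show Valued.v (((d⁻¹ * w * d : GL (Fin 2) k') : Matrix (Fin 2) (Fin 2) k') 1 0
      - (1 : Matrix (Fin 2) (Fin 2) k') 1 0) ^ 2 ≤ _
    rw [Matrix.one_apply_ne (by decide), sub_zero]
    calc Valued.v cg ^ 2 = V⁻¹ * (V * Valued.v cg ^ 2) := by
          rw [inv_mul_cancel_left₀ hV0]
      _ ≤ V⁻¹ * (F⁻¹ * (max 1 V * B ^ 2)) := mul_le_mul' le_rfl hC
      _ ≤ _ := hc2
  · -- (1, 1)
    show Valued.v (((d⁻¹ * w * d : GL (Fin 2) k') : Matrix (Fin 2) (Fin 2) k') 1 1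
      - (1 : Matrix (Fin 2) (Fin 2) k') 1 1) ^ 2 ≤ _
    rw [Matrix.one_apply_eq, g11]
    have e1 : s (((d⁻¹ * w * d : GL (Fin 2) k') : Matrix (Fin 2) (Fin 2) k') 0 0) - 1
        = s ag := by rw [hag, map_sub, map_one]
    rw [e1, hext.val_s]
    exact le_trans hA hc0

/-- **T6.18i.6e `NormalSmallC385`**, VERBATIM. -/
theorem normalSmallC621 : NormalSmallC385 := by
  intro k k' _ _ _ _ q e i s hQ z hz hnn δ₀ hδ M'
  have hext := hQ.ext
  have : CompleteSpace k := hQ.hk.complete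
  have : CharZero k := hQ.hk.char0
  have hC0 := quatConst_ne_zero621 i z
  set C : Γ₀ := quatConst621 i z with hC
  set n : ℤ := WithZero.log C with hn
  have hCe : C = WithZero.exp n := (WithZero.exp_log hC0).symm
  have key : C * WithZero.exp (-((M' + n.toNat : ℕ) : ℤ)) ^ 2
      ≤ WithZero.exp (-(M' : ℤ)) ^ 2 := by
    rw [hCe, ← WithZero.exp_nsmul, ← WithZero.exp_nsmul, ← WithZero.exp_add,
      WithZero.exp_le_exp]
    have h1 : n ≤ (n.toNat : ℤ) := Int.self_le_toNat n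
    simp only [nsmul_eq_mul, Nat.cast_add, Nat.cast_ofNat]
    linarith
  refine ⟨M' + n.toNat, fun w d hw hd hU => ?_⟩
  intro p q'
  constructor
  · refine le_of_pow_le_pow_left₀ two_ne_zero zero_le ?_
    exact le_trans (conj_entries621 hext hz hnn hδ hw hd (fun a b => (hU a b).1) p q') key
  · have e1 : (d⁻¹ * w * d)⁻¹ = d⁻¹ * w⁻¹ * d := by group
    rw [e1]
    refine le_of_pow_le_pow_left₀ two_ne_zero zero_le ?_
    exact le_trans (conj_entries621 hext hz hnn hδ (twCent_inv621 s hw) hd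
      (fun a b => (hU a b).2) p q') key

end Main

end Fermat.Agent.LT.T6.H621

end
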